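/-
Programme AV (S26/S27), brick F1c (smoothness of the model curve), algebra part.
A Dedekind domain of finite type over an algebraically closed field is, locally around every
maximal ideal, etale over the affine line, hence standard smooth of relative dimension one.
No regular local rings are used.  Pure Mathlib.
-/
import Mathlib

set_option autoImplicit false

open Polynomial IsLocalRing KaehlerDifferential TensorProduct

namespace Fermat.Agent.AV.F1Smooth85

universe u

section LocalUnramified

variable {R S : Type*} [CommRing R] [CommRing S] [Algebra R S] [IsLocalRing S]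
  [Algebra.EssFiniteType R S]

/-- A local `R`-algebra `S` essentially of finite type whose maximal ideal is generated by the
image of an ideal of `R`, and whose residue field is a quotient of `R`, is formally unramified
over `R`. -/
theorem formallyUnramified_of_maximalIdeal_eq_map
    (hres : Function.Surjective (algebraMap R (ResidueField S)))
    (I : Ideal R) (hI : maximalIdeal S = I.map (algebraMap R S)) :
    Algebra.FormallyUnramified R S := by
  constructor
  have : Algebra.FormallyUnramified R (ResidueField S) := .of_surjective (Algebra.ofId R _) hres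
  rw [← subsingleton_tensorProduct (R := S)]
  refine subsingleton_of_forall_eq 0 fun x ↦ ?_
  obtain ⟨x, rfl⟩ := (KaehlerDifferential.exact_kerCotangentToTensor_mapBaseChange R S
    (ResidueField S) Ideal.Quotient.mk_surjective x).mp (Subsingleton.elim _ _)
  obtain ⟨⟨x, hx⟩, rfl⟩ := Ideal.toCotangent_surjective _ x
  simp only [KaehlerDifferential.kerCotangentToTensor_toCotangent]
  replace hx : x ∈ Ideal.map (algebraMap R S) I := by
    have : x ∈ maximalIdeal S := by simpa using hx
    rwa [hI] at this
  induction hx using Submodule.span_induction with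
  | zero => simp
  | mem x h => obtain ⟨x, hx, rfl⟩ := h; simp
  | add x y hx hy _ _ => simp [*, TensorProduct.tmul_add]
  | smul a x hx _ =>
    have : residue S x = 0 := by rwa [residue_eq_zero_iff, hI]
    simp [*, TensorProduct.tmul_add, TensorProduct.smul_tmul', ← Algebra.algebraMap_eq_smul_one]

end LocalUnramified

section Dedekind

variable (K : Type u) (A : Type u) [Field K] [CommRing A] [Algebra K A]

/-- Over an algebraically closed field, the residue field of a maximal ideal of a finite type
algebra is the base field. -/
theorem bijective_algebraMap_quotient [IsAlgClosed K] [Algebra.FiniteType K A]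
    (m : Ideal A) [hm : m.IsMaximal] : Function.Bijective (algebraMap K (A ⧸ m)) := by
  let _ : Field (A ⧸ m) := Ideal.Quotient.field m
  have : Algebra.FiniteType K (A ⧸ m) :=
    Algebra.FiniteType.of_surjective (Ideal.Quotient.mkₐ K m) Ideal.Quotient.mk_surjective
  have : Module.Finite K (A ⧸ m) := finite_of_finite_type_of_isJacobsonRing K (A ⧸ m)
  exact IsAlgClosed.algebraMap_bijective_of_isIntegral

variable {A}

/-- A global element which is a uniformiser at a given nonzero maximal ideal. -/
theorem exists_uniformizer [IsDedekindDomain A] (m : Ideal A) [hm : m.IsMaximal]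
    (hm0 : m ≠ ⊥) : ∃ t : A, Irreducible (algebraMap A (Localization.AtPrime m) t) := by
  have : IsDiscreteValuationRing (Localization.AtPrime m) :=
    IsLocalization.AtPrime.isDiscreteValuationRing_of_dedekind_domain A hm0 _
  obtain ⟨ϖ, hϖ⟩ := IsDiscreteValuationRing.exists_irreducible (Localization.AtPrime m)
  obtain ⟨a, s, rfl⟩ := IsLocalization.exists_mk'_eq m.primeCompl ϖ
  refine ⟨a, ?_⟩
  have h1 : algebraMap A (Localization.AtPrime m) a
      = IsLocalization.mk' (Localization.AtPrime m) a s * algebraMap A _ (s : A) := by
    rw [IsLocalization.mk'_spec]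
  rw [h1]
  exact (irreducible_mul_isUnit (IsLocalization.map_units _ s)).mpr hϖ

end Dedekind

section Line

variable (K : Type u) {A : Type u} [Field K] [CommRing A] [Algebra K A]
  [Algebra K[X] A] [IsScalarTower K K[X] A]

omit [Algebra K A] [IsScalarTower K K[X] A] in
/-- `A` is unramified over the line at `m` as soon as the coordinate is a uniformiser at `m` and
the residue field is the base field. -/
theorem isUnramifiedAt_of_irreducible [IsDedekindDomain A] [Algebra.FiniteType K[X] A]
    (m : Ideal A) [hm : m.IsMaximal] (hm0 : m ≠ ⊥)
    (hres : Function.Surjective (algebraMap K[X] (A ⧸ m)))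
    (ht : Irreducible (algebraMap A (Localization.AtPrime m) (algebraMap K[X] A X))) :
    Algebra.IsUnramifiedAt K[X] m := by
  have : IsDiscreteValuationRing (Localization.AtPrime m) :=
    IsLocalization.AtPrime.isDiscreteValuationRing_of_dedekind_domain A hm0 _
  have : Algebra.EssFiniteType K[X] (Localization.AtPrime m) :=
    Algebra.EssFiniteType.comp K[X] A (Localization.AtPrime m)
  refine formallyUnramified_of_maximalIdeal_eq_map ?_ (Ideal.span {X}) ?_
  · -- residue field
    have h1 : Function.Surjective (algebraMap A (ResidueField (Localization.AtPrime m))) :=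
      m.algebraMap_residueField_surjective
    intro y
    obtain ⟨a, rfl⟩ := h1 y
    obtain ⟨p, hp⟩ := hres (Ideal.Quotient.mk m a)
    refine ⟨p, ?_⟩
    rw [IsScalarTower.algebraMap_apply K[X] A (ResidueField (Localization.AtPrime m))]
    rw [IsScalarTower.algebraMap_apply K[X] A (A ⧸ m)] at hp
    have hp' : algebraMap K[X] A p - a ∈ m := by
      rw [← Ideal.Quotient.eq]; exact hp
    rw [← sub_eq_zero, ← map_sub]
    rw [IsScalarTower.algebraMap_apply A (Localization.AtPrime m) (ResidueField _)]
    rw [ResidueField.algebraMap_eq, residue_eq_zero_iff]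
    exact (IsLocalization.AtPrime.to_map_mem_maximal_iff _ m _).mpr hp'
  · rw [ht.maximalIdeal_eq, Ideal.map_span, Set.image_singleton,
      IsScalarTower.algebraMap_apply K[X] A (Localization.AtPrime m)]

end Line

section Poly

variable (R : Type*) [CommRing R]

theorem isStandardSmoothOfRelativeDimension_mvPolynomial_pUnit [Nontrivial R] :
    Algebra.IsStandardSmoothOfRelativeDimension 1 R (MvPolynomial PUnit.{1} R) := by
  have h1 : Algebra.IsStandardSmooth R (MvPolynomial PUnit.{1} R) :=
    Algebra.IsStandardSmooth.of_basis_kaehlerDifferential
      (KaehlerDifferential.mvPolynomialBasis R PUnit.{1}) (by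
        rintro _ ⟨i, rfl⟩
        exact ⟨MvPolynomial.X i, (KaehlerDifferential.mvPolynomialBasis_apply R PUnit.{1} i).symm⟩)
  rw [Algebra.IsStandardSmoothOfRelativeDimension.iff_of_isStandardSmooth]
  rw [rank_eq_card_basis (KaehlerDifferential.mvPolynomialBasis R PUnit.{1})]
  simp

/-- `R[X]` is standard smooth of relative dimension one over `R`. -/
theorem isStandardSmoothOfRelativeDimension_polynomial [Nontrivial R] :
    Algebra.IsStandardSmoothOfRelativeDimension 1 R R[X] :=
  haveI := isStandardSmoothOfRelativeDimension_mvPolynomial_pUnit R
  Algebra.IsStandardSmoothOfRelativeDimension.of_algEquiv 1 (MvPolynomial.uniqueAlgEquiv R PUnit.{1})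

end Poly

section Transc

variable (K : Type u) {A : Type u} [Field K] [CommRing A] [Algebra K A]

/-- An element of a domain over an algebraically closed field which is algebraic is a constant. -/
theorem mem_range_of_isAlgebraic [IsAlgClosed K] [IsDomain A] {t : A} (ht : IsAlgebraic K t) :
    t ∈ (algebraMap K A).range := by
  have hint : IsIntegral K t := ht.isIntegral
  have hirr := minpoly.irreducible hint
  have hdeg := IsAlgClosed.degree_eq_one_of_irreducible K hirr
  exact minpoly.mem_range_of_degree_eq_one K t hdeg

/-- a nonzero element of a proper ideal is transcendental -/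
theorem transcendental_of_mem [IsAlgClosed K] [IsDomain A] {t : A} (m : Ideal A) (hm : m ≠ ⊤)
    (htm : t ∈ m) (ht0 : t ≠ 0) : Transcendental K t := by
  intro halg
  obtain ⟨c, rfl⟩ := mem_range_of_isAlgebraic K halg
  have hc : c ≠ 0 := by rintro rfl; simp at ht0
  apply hm
  rw [Ideal.eq_top_iff_one]
  have : (algebraMap K A c⁻¹) * algebraMap K A c ∈ m := m.mul_mem_left _ htm
  rwa [← map_mul, inv_mul_cancel₀ hc, map_one] at this

end Transc

section Main

variable (K : Type u) {A : Type u} [Field K] [CommRing A] [Algebra K A]

theorem exists_away_isStandardSmoothOfRelativeDimension_one_aux [IsAlgClosed K]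
    [IsDedekindDomain A] [Algebra.FiniteType K A] [Algebra K[X] A] [IsScalarTower K K[X] A]
    (m : Ideal A) [hm : m.IsMaximal] (hm0 : m ≠ ⊥)
    (ht : Irreducible (algebraMap A (Localization.AtPrime m) (algebraMap K[X] A X))) :
    ∃ f : A, f ∉ m ∧ Algebra.Etale K[X] (Localization.Away f) := by
  have : IsDiscreteValuationRing (Localization.AtPrime m) :=
    IsLocalization.AtPrime.isDiscreteValuationRing_of_dedekind_domain A hm0 _
  set t : A := algebraMap K[X] A X with ht_def
  have htm : t ∈ m := by
    rw [← IsLocalization.AtPrime.to_map_mem_maximal_iff (Localization.AtPrime m) m]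
    rw [ht.maximalIdeal_eq]; exact Ideal.mem_span_singleton_self _
  have ht0 : t ≠ 0 := by
    intro h; rw [h, map_zero] at ht; exact not_irreducible_zero ht
  have htr : Transcendental K t := transcendental_of_mem K m hm.ne_top htm ht0
  have hFT : Algebra.FiniteType K[X] A := Algebra.FiniteType.of_restrictScalars_finiteType K K[X] A
  have hFPK : Algebra.FinitePresentation K A := Algebra.FinitePresentation.of_finiteType.mp ‹_›
  have hFP : Algebra.FinitePresentation K[X] A :=
    Algebra.FinitePresentation.of_restrict_scalars_finitePresentation K K[X] A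
  have hinj : Function.Injective (algebraMap K[X] A) := by
    have h1 : (algebraMap K[X] A) = (aeval (R := K) t : K[X] →ₐ[K] A) := by
      ext x
      · simp only [RingHom.coe_comp, Function.comp_apply, AlgHom.coe_toRingHom, aeval_C]
        rw [← Polynomial.algebraMap_eq, ← IsScalarTower.algebraMap_apply]
      · simp [ht_def]
    rw [h1]
    exact transcendental_iff_injective.mp htr
  have hTF : Module.IsTorsionFree K[X] A := Module.isTorsionFree_iff_algebraMap_injective.mpr hinj
  have hflat : Module.Flat K[X] A := inferInstance
  have hres : Function.Surjective (algebraMap K[X] (A ⧸ m)) := by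
    intro y
    obtain ⟨c, rfl⟩ := (bijective_algebraMap_quotient K A m).surjective y
    exact ⟨C c, by
      rw [← Polynomial.algebraMap_eq, ← IsScalarTower.algebraMap_apply]⟩
  have hunr : Algebra.IsUnramifiedAt K[X] m := isUnramifiedAt_of_irreducible K m hm0 hres ht
  obtain ⟨f, hfm, hf⟩ := Algebra.exists_unramified_of_isUnramifiedAt (R := K[X]) m
  refine ⟨f, hfm, ?_⟩
  have : Algebra.FormallyUnramified K[X] (Localization.Away f) := hf.1
  have : Algebra.FinitePresentation K[X] (Localization.Away f) :=
    Algebra.FinitePresentation.trans K[X] A (Localization.Away f)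
  have : Module.Flat K[X] (Localization.Away f) := Module.Flat.trans K[X] A (Localization.Away f)
  exact Algebra.Etale.of_formallyUnramified_of_flat

/-- **Main algebraic statement of brick F1c.** A Dedekind domain of finite type over an
algebraically closed field is standard smooth of relative dimension one in a basic open
neighbourhood of every nonzero maximal ideal. -/
theorem exists_away_isStandardSmoothOfRelativeDimension_one [IsAlgClosed K]
    [IsDedekindDomain A] [Algebra.FiniteType K A] (m : Ideal A) [hm : m.IsMaximal]
    (hm0 : m ≠ ⊥) :
    ∃ f : A, f ∉ m ∧ Algebra.IsStandardSmoothOfRelativeDimension 1 K (Localization.Away f) := by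
  obtain ⟨t, ht⟩ := exists_uniformizer m hm0
  let _ : Algebra K[X] A := (aeval (R := K) t : K[X] →ₐ[K] A).toRingHom.toAlgebra
  have hST : IsScalarTower K K[X] A := IsScalarTower.of_algebraMap_eq fun x => by
    show algebraMap K A x = (aeval (R := K) t) (algebraMap K K[X] x)
    rw [Polynomial.algebraMap_eq, aeval_C]
  have hX : algebraMap K[X] A X = t := by
    show (aeval (R := K) t) X = t
    exact aeval_X t
  rw [← hX] at ht
  obtain ⟨f, hfm, hf⟩ := exists_away_isStandardSmoothOfRelativeDimension_one_aux K m hm0 ht
  refine ⟨f, hfm, ?_⟩
  have h0 : Algebra.IsStandardSmoothOfRelativeDimension 0 K[X] (Localization.Away f) :=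
    Algebra.Etale.iff_isStandardSmoothOfRelativeDimension_zero.mp hf
  have h1 : Algebra.IsStandardSmoothOfRelativeDimension 1 K K[X] :=
    isStandardSmoothOfRelativeDimension_polynomial K
  have := Algebra.IsStandardSmoothOfRelativeDimension.trans 1 0 K K[X] (Localization.Away f)
  simpa using this

end Main

end Fermat.Agent.AV.F1Smooth85
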